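import Mathlib.LinearAlgebra.RootSystem.CartanMatrix

/-!
# Bases of a root system are conjugate

Any two bases of a finite reduced crystallographic root system over a field of characteristic zero
differ by a product of reflections, so the Cartan matrix does not depend on the base.
-/

set_option autoImplicit false
set_option linter.unusedSectionVars false

noncomputable section

namespace FA.CartanClassification

open RootPairing Module

variable {ι R M N : Type*} [Field R] [CharZero R] [AddCommGroup M] [Module R M] [AddCommGroup N]
  [Module R N] {P : RootPairing ι R M N}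

variable (P) in
/-- The permutation of roots of a word in reflections. -/
def permWord (l : List ι) : Equiv.Perm ι := (l.map P.reflectionPerm).prod

variable (P) in
/-- The linear map of a word in reflections. -/
def reflWord (l : List ι) : M ≃ₗ[R] M := (l.map P.reflection).prod

lemma permWord_append_singleton (l : List ι) (j i : ι) :
    permWord P (l ++ [j]) i = permWord P l (P.reflectionPerm j i) := by
  simp [permWord]

lemma root_permWord (l : List ι) (i : ι) :
    P.root (permWord P l i) = reflWord P l (P.root i) := by
  induction l with
  | nil => simp [permWord, reflWord]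
  | cons a l ih =>
    simp only [permWord, reflWord, List.map_cons, List.prod_cons, Equiv.Perm.mul_apply] at ih ⊢
    rw [root_reflectionPerm, ih]
    rfl

lemma pairing_permWord (l : List ι) (i j : ι) :
    P.pairing (permWord P l i) (permWord P l j) = P.pairing i j := by
  induction l with
  | nil => simp [permWord]
  | cons a l ih =>
    simp only [permWord, List.map_cons, List.prod_cons, Equiv.Perm.mul_apply] at ih ⊢
    rw [P.pairing_reflectionPerm, P.reflectionPerm_self, ih]

variable [Finite ι] [P.IsRootSystem] [P.IsCrystallographic]

lemma height_neg_self (b : P.Base) (i : ι) :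
    b.height (P.reflectionPerm i i) = -b.height i :=
  b.height_reflectionPerm_self i

/-- A positive root is simple or a sum of two positive roots. -/
lemma simple_or_sum {b : P.Base} {i : ι} (hi : b.IsPos i) :
    i ∈ b.support ∨ ∃ a c, b.IsPos a ∧ b.IsPos c ∧ P.root i = P.root a + P.root c := by
  refine (hi.induction_on_add (p := fun i => b.IsPos i ∧ (i ∈ b.support ∨
      ∃ a c, b.IsPos a ∧ b.IsPos c ∧ P.root i = P.root a + P.root c))
    (fun j hj => ⟨Base.isPos_of_mem_support hj, Or.inl hj⟩) fun a c k hk ha hc => ?_).2
  exact ⟨ha.1.add (Base.isPos_of_mem_support hc) hk,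
    Or.inr ⟨a, c, ha.1, Base.isPos_of_mem_support hc, hk⟩⟩

lemma card_support (b : P.Base) : Nat.card b.support = finrank R M :=
  (Module.finrank_eq_nat_card_basis b.toWeightBasis).symm

variable [P.IsReduced] (b₁ b₂ : P.Base)

open scoped Classical in
/-- Some word of reflections carries one base onto the other. -/
theorem exists_word_map_support :
    ∃ l : List ι, ∀ j ∈ b₁.support, permWord P l j ∈ b₂.support := by
  have : Fintype ι := Fintype.ofFinite ι
  let bad : List ι → Finset ι := fun l =>
    Finset.univ.filter fun i => b₁.IsPos i ∧ ¬b₂.IsPos (permWord P l i)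
  have hneg : ∀ l i, b₂.height (permWord P l (P.reflectionPerm i i)) =
      -b₂.height (permWord P l i) := fun l i => by
    rw [← height_neg_self b₂ (permWord P l i)]
    congr 1
    refine P.root.injective ?_
    rw [root_permWord, root_reflectionPerm, RootPairing.reflection_apply_self, map_neg,
      ← root_permWord, root_reflectionPerm, RootPairing.reflection_apply_self]
  suffices ∀ (n : ℕ) (l : List ι), (bad l).card = n →
      ∃ l' : List ι, ∀ j ∈ b₁.support, permWord P l' j ∈ b₂.support from this _ [] rfl
  intro n
  induction n using Nat.strong_induction_on with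
  | _ n ih =>
  intro l hn
  by_cases hall : ∀ j ∈ b₁.support, b₂.IsPos (permWord P l j)
  · have hpos : ∀ i, b₁.IsPos i → b₂.IsPos (permWord P l i) := fun i hi => by
      refine hi.induction_on_add hall fun a c k hk ha hc => ?_
      refine ha.add (hall c hc) ?_
      rw [root_permWord, root_permWord, root_permWord, hk, map_add]
    refine ⟨l, fun j hj => (simple_or_sum (hall j hj)).resolve_right ?_⟩
    rintro ⟨a, c, ha, hc, hac⟩
    have hpull : ∀ a, b₂.IsPos a → b₁.IsPos ((permWord P l).symm a) := fun a ha => by
      by_contra hna
      have h := hpos (P.reflectionPerm ((permWord P l).symm a) ((permWord P l).symm a)) (by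
        rw [Base.isPos_iff, height_neg_self]
        rw [Base.isPos_iff] at hna
        have := b₁.height_ne_zero ((permWord P l).symm a)
        omega)
      rw [Base.isPos_iff, hneg, Equiv.apply_symm_apply] at h
      rw [Base.isPos_iff] at ha
      omega
    have hk : P.root j = P.root ((permWord P l).symm a) + P.root ((permWord P l).symm c) := by
      refine (reflWord P l).injective ?_
      rw [map_add, ← root_permWord, ← root_permWord, ← root_permWord, Equiv.apply_symm_apply,
        Equiv.apply_symm_apply, hac]
    have h1 := b₁.height_add hk
    have h2 := hpull a ha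
    have h3 := hpull c hc
    rw [b₁.height_one_of_mem_support hj] at h1
    rw [Base.isPos_iff] at h2 h3
    omega
  push Not at hall
  obtain ⟨j, hj, hjneg⟩ := hall
  have hjbad : j ∈ bad l := by simp [bad, Base.isPos_of_mem_support hj, hjneg]
  have hsub : (bad (l ++ [j])).map (P.reflectionPerm j).toEmbedding ⊆ (bad l).erase j := by
    intro i hi
    rw [Finset.mem_map_equiv] at hi
    simp only [bad, Finset.mem_filter, Finset.mem_univ, true_and,
      permWord_append_singleton, Equiv.apply_symm_apply] at hi
    set i₀ := (P.reflectionPerm j).symm i with hi₀
    have hne : i₀ ≠ j := fun h => by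
      refine hi.2 ?_
      have h' : i = P.reflectionPerm j j := (Equiv.symm_apply_eq _).1 h
      rw [Base.isPos_iff] at hjneg ⊢
      rw [h', hneg]
      have := b₂.height_ne_zero (permWord P l j)
      omega
    have hpos : b₁.IsPos i := by
      have := hi.1.reflectionPerm hj hne
      rwa [hi₀, Equiv.apply_symm_apply] at this
    refine Finset.mem_erase.2 ⟨fun h => ?_, by simp [bad, hpos, hi.2]⟩
    have h' : i₀ = P.reflectionPerm j j := by
      rw [hi₀, h, Equiv.symm_apply_eq]
      exact (P.reflectionPerm_self j j).symm
    have hp := hi.1
    rw [h', Base.isPos_iff, height_neg_self, b₁.height_one_of_mem_support hj] at hp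
    omega
  have hlt : (bad (l ++ [j])).card < n := by
    rw [← hn, ← Finset.card_map (P.reflectionPerm j).toEmbedding]
    exact lt_of_le_of_lt (Finset.card_le_card hsub) (Finset.card_erase_lt_of_mem hjbad)
  exact ih _ hlt _ rfl

/-- Any two bases have the same Cartan matrix up to a bijection coming from the reflections. -/
theorem exists_equiv_cartanMatrix :
    ∃ (σ : b₁.support ≃ b₂.support) (l : List ι),
      (∀ i : b₁.support, (σ i : ι) = permWord P l i) ∧
        ∀ i j, b₂.cartanMatrix (σ i) (σ j) = b₁.cartanMatrix i j := by
  obtain ⟨l, hl⟩ := exists_word_map_support b₁ b₂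
  let f : b₁.support → b₂.support := fun i => ⟨permWord P l i, hl i i.2⟩
  have hinj : Function.Injective f := fun i j h =>
    Subtype.ext ((permWord P l).injective (congrArg Subtype.val h))
  have hbij : Function.Bijective f := (Nat.bijective_iff_injective_and_card f).2
    ⟨hinj, (card_support b₁).trans (card_support b₂).symm⟩
  refine ⟨Equiv.ofBijective f hbij, l, fun i => rfl, fun i j => ?_⟩
  apply FaithfulSMul.algebraMap_injective ℤ R
  rw [Base.algebraMap_cartanMatrixIn_apply, Base.algebraMap_cartanMatrixIn_apply]
  exact pairing_permWord l i j

end FA.CartanClassification
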