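import Fermat.Agent.CartanConjugacy.Conjugacy
import Fermat.Agent.CartanClassification.Bases
import Fermat.Agent.SerreTheorem.Geck
import Mathlib.Algebra.Lie.Weights.IsSimple

/-!
# Classification of semisimple Lie algebras by Cartan matrices

Isomorphic semisimple Lie algebras over an algebraically closed field of characteristic zero have
the same Cartan matrices, and every irreducible root system is that of a simple Lie algebra.
-/

set_option autoImplicit false
set_option linter.unusedSectionVars false

noncomputable section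

namespace FA.CartanClassification

open Module LieModule LieAlgebra LieAlgebra.IsKilling FA.CartanConjugacy

attribute [local instance 100] LieRing.ofAssociativeRing

section Conjugate

variable {K L L' : Type*} [Field K] [CharZero K] [IsAlgClosed K] [LieRing L] [LieAlgebra K L]
  [FiniteDimensional K L] [LieRing L'] [LieAlgebra K L'] [FiniteDimensional K L']

/-- An isomorphism can be corrected to match given Cartan subalgebras. -/
theorem exists_equiv_map_eq (φ : L ≃ₗ⁅K⁆ L') (H : LieSubalgebra K L) [H.IsCartanSubalgebra]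
    (H' : LieSubalgebra K L') [H'.IsCartanSubalgebra] :
    ∃ ψ : L ≃ₗ⁅K⁆ L', H.map ψ.toLieHom = H' := by
  classical
  let C := Module.finBasis K L
  have hn : finrank K L = finrank K L' := φ.toLinearEquiv.finrank_eq
  let C' : Basis (Fin (finrank K L')) K L' :=
    (C.map φ.toLinearEquiv).reindex (finCongr hn)
  obtain ⟨a, ha, h⟩ := exists_open_conjugates C H
  obtain ⟨a', ha', h'⟩ := exists_open_conjugates C' H'
  have ha'' : MvPolynomial.rename (finCongr hn).symm a' ≠ 0 := fun h0 =>
    ha' (MvPolynomial.rename_injective _ (finCongr hn).symm.injective (h0.trans (map_zero _).symm))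
  obtain ⟨z, hz⟩ := exists_eval_ne_zero C (mul_ne_zero ha ha'')
  rw [map_mul, mul_ne_zero_iff] at hz
  obtain ⟨φ₁, -, x, hx, hx'⟩ := h z hz.1
  obtain ⟨φ₂, -, y, hy, hy'⟩ := h' (φ z) (by
    convert hz.2 using 1
    rw [MvPolynomial.eval_rename]
    congr 2
    funext i
    simp only [C', Basis.repr_reindex_apply, Basis.map_repr, LinearEquiv.trans_apply,
      Function.comp_apply]
    rw [show φ.toLinearEquiv.symm (φ z) = z from φ.toLinearEquiv.symm_apply_apply z])
  refine ⟨(φ₁.trans φ).trans φ₂.symm, ?_⟩
  conv_lhs => rw [← hx]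
  rw [map_engel, LieEquiv.trans_apply, LieEquiv.trans_apply, hx', ← hy',
    LieEquiv.symm_apply_apply, hy]

end Conjugate

section MapBasis

variable {K L L' ι : Type*} [Field K] [LieRing L] [LieAlgebra K L] [LieRing L'] [LieAlgebra K L']
  [Finite ι]

lemma map_lieSpan (f : L →ₗ⁅K⁆ L') (s : Set L) :
    (LieSubalgebra.lieSpan K L s).map f = LieSubalgebra.lieSpan K L' (f '' s) := by
  refine le_antisymm (LieSubalgebra.map_le_iff_le_comap.2 (LieSubalgebra.lieSpan_le.2 ?_))
    (LieSubalgebra.lieSpan_le.2 ?_)
  · exact fun x hx => LieSubalgebra.subset_lieSpan ⟨x, hx, rfl⟩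
  · rintro _ ⟨x, hx, rfl⟩
    exact (LieSubalgebra.mem_map _ _ _).2 ⟨x, LieSubalgebra.subset_lieSpan hx, rfl⟩

/-- The image of a basis under an isomorphism. -/
def mapBasis {H : LieSubalgebra K L} {H' : LieSubalgebra K L'} (B : LieAlgebra.Basis ι H)
    (φ : L ≃ₗ⁅K⁆ L') (hφ : H.map φ.toLieHom = H') : LieAlgebra.Basis ι H' where
  A := B.A
  h i := φ (B.h i)
  e i := φ (B.e i)
  f i := φ (B.f i)
  cartan_eq_lieSpan := by
    conv_lhs => rw [← hφ, B.cartan_eq_lieSpan, map_lieSpan, ← Set.range_comp]
    rfl
  span_ef := by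
    have h := congrArg (LieSubalgebra.map φ.toLieHom) B.span_ef
    rw [map_lieSpan, Set.image_union, ← Set.range_comp, ← Set.range_comp] at h
    refine h.trans (eq_top_iff.2 fun y _ => ?_)
    exact (LieSubalgebra.mem_map _ _ _).2
      ⟨φ.symm y, LieSubalgebra.mem_top _, φ.apply_symm_apply y⟩
  linInd := B.linInd.map' φ.toLinearEquiv.toLinearMap φ.toLinearEquiv.ker
  nondegen := B.nondegen
  sl2 i :=
    { h_ne_zero := fun h => (B.sl2 i).h_ne_zero (φ.injective (h.trans (map_zero φ).symm))
      lie_e_f := (φ.toLieHom.map_lie _ _).symm.trans (congrArg φ (B.sl2 i).lie_e_f)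
      lie_h_e_nsmul := ((φ.toLieHom.map_lie _ _).symm.trans
        (congrArg φ (B.sl2 i).lie_h_e_nsmul)).trans (map_nsmul φ 2 _)
      lie_h_f_nsmul := ((φ.toLieHom.map_lie _ _).symm.trans
        (congrArg φ (B.sl2 i).lie_h_f_nsmul)).trans ((map_neg φ _).trans
          (congrArg Neg.neg (map_nsmul φ 2 _))) }
  lie_h_h i j := ((φ.toLieHom.map_lie _ _).symm.trans (congrArg φ (B.lie_h_h i j))).trans
    (map_zero φ)
  lie_h_e i j := ((φ.toLieHom.map_lie _ _).symm.trans (congrArg φ (B.lie_h_e i j))).trans
    (map_zsmul φ _ _)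
  lie_h_f i j := ((φ.toLieHom.map_lie _ _).symm.trans (congrArg φ (B.lie_h_f i j))).trans
    (map_zsmul φ _ _)
  lie_e_f_ne i j hij := ((φ.toLieHom.map_lie _ _).symm.trans
    (congrArg φ (B.lie_e_f_ne i j hij))).trans (map_zero φ)

end MapBasis

section RootEquiv

variable {ι ι₂ R M N M₂ N₂ : Type*} [Field R] [CharZero R] [AddCommGroup M] [Module R M]
  [AddCommGroup N] [Module R N] [AddCommGroup M₂] [Module R M₂] [AddCommGroup N₂] [Module R N₂]
  {P : RootPairing ι R M N} {Q : RootPairing ι₂ R M₂ N₂} (e : P.Equiv Q)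

lemma coroot'_weightMap (i : ι) (x : M) :
    Q.coroot' (e.indexEquiv i) (e.weightMap x) = P.coroot' i x := by
  have h := LinearMap.congr_fun
    (RootPairing.Hom.weight_coweight_transpose_apply P Q (Q.coroot (e.indexEquiv i)) e.toHom) x
  rw [RootPairing.Hom.coroot_coweightMap_apply P Q, Equiv.symm_apply_apply] at h
  exact h

lemma pairing_indexEquiv (i j : ι) :
    Q.pairing (e.indexEquiv i) (e.indexEquiv j) = P.pairing i j := by
  have h := coroot'_weightMap e j (P.root i)
  rw [RootPairing.Hom.root_weightMap_apply P Q] at h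
  exact h

lemma reflection_weightMap (i : ι) (x : M) :
    Q.reflection (e.indexEquiv i) (e.weightMap x) = e.weightMap (P.reflection i x) := by
  rw [RootPairing.reflection_apply, RootPairing.reflection_apply, map_sub, map_smul,
    RootPairing.Hom.root_weightMap_apply P Q, coroot'_weightMap]

include e in
/-- Irreducibility is invariant under equivalence. -/
lemma isIrreducible_of_equiv [P.IsIrreducible] : Q.IsIrreducible := by
  let w : M ≃ₗ[R] M₂ := RootPairing.Equiv.weightEquiv P Q e
  have : Nontrivial M := RootPairing.IsIrreducible.nontrivial P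
  have : Nontrivial M₂ := w.symm.toEquiv.nontrivial
  refine RootPairing.IsIrreducible.mk' Q fun q hq hne => ?_
  have h := RootPairing.IsIrreducible.eq_top_of_invtSubmodule_reflection (P := P)
    (q.comap w.toLinearMap) (fun i => (Module.End.mem_invtSubmodule _).2 fun x hx => by
      have h1 := (Module.End.mem_invtSubmodule _).1 (hq (e.indexEquiv i)) hx
      rw [Submodule.mem_comap, Submodule.mem_comap]
      rw [Submodule.mem_comap] at h1
      show e.weightMap (P.reflection i x) ∈ q
      rw [← reflection_weightMap e i x]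
      exact h1)
    (fun h0 => hne (Submodule.comap_injective_of_surjective w.surjective
      (h0.trans ((Submodule.comap_bot _).trans w.ker).symm)))
  exact Submodule.comap_injective_of_surjective w.surjective (h.trans (Submodule.comap_top _).symm)

variable [Finite ι] [Finite ι₂] [P.IsRootSystem] [Q.IsRootSystem] [P.IsCrystallographic]
  [Q.IsCrystallographic] [P.IsReduced] [Q.IsReduced]

include e in
/-- Equivalent root systems have the same Cartan matrices, for any bases. -/
theorem exists_equiv_of_rootSystem_equiv (b : P.Base) (b₂ : Q.Base) :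
    ∃ σ : b.support ≃ b₂.support,
      ∀ i j, b₂.cartanMatrix (σ i) (σ j) = b.cartanMatrix i j := by
  classical
  let w : M ≃ₗ[R] M₂ := RootPairing.Equiv.weightEquiv P Q e
  have hw : ∀ i, w (P.root i) = Q.root (e.indexEquiv i) := fun i =>
    RootPairing.Hom.root_weightMap_apply P Q i e.toHom
  let s : Set ι₂ := e.indexEquiv '' (b.support : Set ι)
  have himg : Q.root '' s = w '' (P.root '' (b.support : Set ι)) := by
    rw [← Set.image_comp, ← Set.image_comp]
    exact Set.image_congr fun i _ => (hw i).symm
  have hli : LinearIndepOn R Q.root s := by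
    refine LinearIndepOn.image_of_comp _ _ ?_
    exact (b.linearIndepOn_root.map_injOn w.toLinearMap w.injective.injOn).congr fun i _ => hw i
  have hsp : ∀ i, Q.root i ∈ AddSubmonoid.closure (Q.root '' s) ∨
      -Q.root i ∈ AddSubmonoid.closure (Q.root '' s) := fun i => by
    rw [himg, ← e.indexEquiv.apply_symm_apply i, ← hw, ← map_neg]
    have key : ∀ {x : M}, x ∈ AddSubmonoid.closure (P.root '' (b.support : Set ι)) →
        w x ∈ AddSubmonoid.closure (w '' (P.root '' (b.support : Set ι))) := fun {x} h => by
      have h2 := AddSubmonoid.mem_map_of_mem w.toLinearMap.toAddMonoidHom h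
      rw [AddMonoidHom.map_mclosure] at h2
      exact h2
    exact (b.root_mem_or_neg_mem (e.indexEquiv.symm i)).imp key key
  let bQ : Q.Base := RootPairing.Base.mk' Q s hli hsp
  have hsupp : ∀ i, e.indexEquiv i ∈ bQ.support ↔ i ∈ b.support := fun i => by
    simp [bQ, RootPairing.Base.mk', s]
  let τ : b.support ≃ bQ.support := e.indexEquiv.subtypeEquiv fun i => (hsupp i).symm
  obtain ⟨σ, l, -, hσ⟩ := exists_equiv_cartanMatrix bQ b₂
  refine ⟨τ.trans σ, fun i j => ?_⟩
  rw [Equiv.trans_apply, Equiv.trans_apply, hσ]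
  apply FaithfulSMul.algebraMap_injective ℤ R
  rw [RootPairing.Base.algebraMap_cartanMatrixIn_apply,
    RootPairing.Base.algebraMap_cartanMatrixIn_apply]
  exact pairing_indexEquiv e i j

end RootEquiv

section Semisimple

variable {K L L' : Type*} [Field K] [CharZero K] [LieRing L] [LieAlgebra K L]
  [FiniteDimensional K L] [IsKilling K L] {H : LieSubalgebra K L} [H.IsCartanSubalgebra]
  [IsTriangularizable K H L] [LieRing L'] [LieAlgebra K L']
  [FiniteDimensional K L'] [IsKilling K L'] {H' : LieSubalgebra K L'} [H'.IsCartanSubalgebra]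
  [IsTriangularizable K H' L']

/-- An isomorphism matching the Cartan subalgebras matches the Cartan matrices. -/
theorem exists_equiv_of_map_eq (φ : L ≃ₗ⁅K⁆ L') (hφ : H.map φ.toLieHom = H')
    (b : (rootSystem H).Base) (b' : (rootSystem H').Base) :
    ∃ σ : b.support ≃ b'.support,
      ∀ i j, b'.cartanMatrix (σ i) (σ j) = b.cartanMatrix i j := by
  let B' := mapBasis (FA.SerreTheorem.chevalley b (FA.SerreTheorem.stdTriples b)) φ hφ
  obtain ⟨σ, l, -, hσ⟩ := exists_equiv_cartanMatrix B'.base b'
  refine ⟨B'.baseSupportEquiv.trans σ, fun i j => ?_⟩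
  rw [Equiv.trans_apply, Equiv.trans_apply, hσ, B'.cartanMatrix_base_eq, Matrix.reindex_apply,
    Matrix.submatrix_apply, Equiv.symm_apply_apply, Equiv.symm_apply_apply]
  rfl

/-- Isomorphic semisimple Lie algebras have the same Cartan matrices. -/
theorem exists_equiv_of_lieEquiv [IsAlgClosed K] (φ : L ≃ₗ⁅K⁆ L')
    (b : (rootSystem H).Base) (b' : (rootSystem H').Base) :
    ∃ σ : b.support ≃ b'.support,
      ∀ i j, b'.cartanMatrix (σ i) (σ j) = b.cartanMatrix i j := by
  obtain ⟨ψ, hψ⟩ := exists_equiv_map_eq φ H H'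
  exact exists_equiv_of_map_eq ψ hψ b b'

end Semisimple

section Existence

open RootPairing

variable {ι K M N : Type*} [Fintype ι] [DecidableEq ι] [Field K] [CharZero K] [IsAlgClosed K]
  [AddCommGroup M] [Module K M] [AddCommGroup N] [Module K N]
  {P : RootPairing ι K M N} [P.IsReduced] [P.IsCrystallographic] [P.IsIrreducible] [P.IsRootSystem]
  (b : P.Base)

/-- Geck's algebra of an irreducible root system is simple. -/
theorem isSimple_geck : LieAlgebra.IsSimple K (GeckConstruction.lieAlgebra b) :=
  isSimple_iff_isIrreducible.1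
    (isIrreducible_of_equiv (GeckConstruction.equivRootSystem b))

end Existence

end FA.CartanClassification
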